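import Mathlib.Analysis.Convex.Topology
import Mathlib.Analysis.InnerProductSpace.Projection.Minimal
import Mathlib.Analysis.InnerProductSpace.Continuous

/-!
# Balls about contracted centres

For finitely many centres a minimiser of the largest excess lies in the hull of the active centres,
where a variance identity bounds the excess by zero. Points of least norm of finite intersections
of closed convex sets converge to a common point of all.
-/

set_option autoImplicit false

noncomputable section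

namespace FA.Kirszbraun

open Filter Topology
open scoped RealInnerProductSpace

variable {E : Type*} [NormedAddCommGroup E] [InnerProductSpace ℝ E]
variable {F : Type*} [NormedAddCommGroup F] [InnerProductSpace ℝ F]

theorem weighted_sq_dist {α : Type*} (s : Finset α) (w : α → ℝ) (hw : ∑ i ∈ s, w i = 1)
    (v : α → E) (c : E) :
    ∑ i ∈ s, w i * ‖c - v i‖ ^ 2 = ‖c - ∑ i ∈ s, w i • v i‖ ^ 2 +
      (∑ i ∈ s, ∑ j ∈ s, w i * w j * ‖v i - v j‖ ^ 2) / 2 := by
  set m := ∑ i ∈ s, w i • v i with hm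
  have h1 : ∀ c : E, ∑ i ∈ s, w i * ‖c - v i‖ ^ 2 =
      ‖c‖ ^ 2 - 2 * ⟪c, m⟫ + ∑ i ∈ s, w i * ‖v i‖ ^ 2 := fun c => by
    simp only [norm_sub_sq_real, mul_add, mul_sub, Finset.sum_add_distrib, Finset.sum_sub_distrib,
      ← Finset.sum_mul, hw, one_mul, hm, inner_sum, real_inner_smul_right, Finset.mul_sum]
    congr 2
    exact Finset.sum_congr rfl fun i _ => by ring
  have h2 : ∑ i ∈ s, ∑ j ∈ s, w i * w j * ‖v i - v j‖ ^ 2 =
      2 * (∑ i ∈ s, w i * ‖v i‖ ^ 2) - 2 * ‖m‖ ^ 2 := by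
    simp only [mul_assoc, ← Finset.mul_sum, h1]
    simp only [mul_add, mul_sub, Finset.sum_add_distrib, Finset.sum_sub_distrib, ← Finset.sum_mul,
      hw, one_mul]
    rw [← real_inner_self_eq_norm_sq m]
    have e : ∑ i ∈ s, w i * (2 * ⟪v i, m⟫) = 2 * ⟪m, m⟫ := by
      conv_rhs => rw [hm, sum_inner, Finset.mul_sum]
      exact Finset.sum_congr rfl fun i _ => by rw [real_inner_smul_left, hm]; ring
    rw [e]
    ring
  rw [h1, h2, norm_sub_sq_real]
  ring

/-- **Finitely many centres.** -/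
theorem exists_hull_point {ι : Type*} (t : Finset ι) (ht : t.Nonempty) (x : ι → E) (y : ι → F)
    (K : ℝ) (h : ∀ i ∈ t, ∀ j ∈ t, ‖y i - y j‖ ≤ K * ‖x i - x j‖) (p : E) :
    ∃ q ∈ convexHull ℝ (y '' t), ∀ i ∈ t, ‖q - y i‖ ^ 2 ≤ (K * ‖p - x i‖) ^ 2 := by
  classical
  set g : ι → F → ℝ := fun i q => ‖q - y i‖ ^ 2 - (K * ‖p - x i‖) ^ 2 with hg
  have hgc : ∀ i, Continuous (g i) := fun i => by fun_prop
  have hne : (convexHull ℝ (y '' t)).Nonempty := (ht.to_set.image y).convexHull
  obtain ⟨q, hq, hmin⟩ := ((t.finite_toSet.image y).isCompact_convexHull (𝕜 := ℝ)).exists_isMinOn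
    hne (Continuous.finset_sup'_apply ht fun i _ => hgc i).continuousOn
  refine ⟨q, hq, ?_⟩
  set m := t.sup' ht fun i => g i q
  suffices hm : m ≤ 0 from fun i hi =>
    sub_nonpos.1 ((Finset.le_sup' (fun i => g i q) hi).trans hm)
  by_contra! hm
  set A := t.filter fun i => g i q = m
  set C := convexHull ℝ ((A.image y : Finset F) : Set F) with hC
  have hA : A.Nonempty := by
    obtain ⟨i, hi, e⟩ := Finset.exists_mem_eq_sup' ht fun i => g i q
    exact ⟨i, Finset.mem_filter.2 ⟨hi, e.symm⟩⟩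
  by_cases hqC : q ∈ C
  · rw [hC, Finset.convexHull_eq] at hqC
    obtain ⟨w, hw0, hw1, hwq⟩ := hqC
    rw [Finset.centerMass_eq_of_sum_1 _ _ hw1] at hwq
    have hpre : ∀ z ∈ A.image y, ∃ i ∈ A, y i = z := fun z hz => Finset.mem_image.1 hz
    have : Nonempty ι := ⟨ht.choose⟩
    choose! f hf hfy using hpre
    have e1 : ∑ z ∈ A.image y, w z * g (f z) q = m := by
      rw [Finset.sum_congr rfl fun z hz => by rw [(Finset.mem_filter.1 (hf z hz)).2],
        ← Finset.sum_mul, hw1, one_mul]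
    have e2 : ∑ z ∈ A.image y, w z * g (f z) q =
        ∑ z ∈ A.image y, w z * ‖q - z‖ ^ 2 -
          K ^ 2 * ∑ z ∈ A.image y, w z * ‖p - x (f z)‖ ^ 2 := by
      rw [Finset.mul_sum, ← Finset.sum_sub_distrib]
      exact Finset.sum_congr rfl fun z hz => by rw [hg]; simp only [hfy z hz]; ring
    have e3 := weighted_sq_dist _ w hw1 id q
    have e4 := weighted_sq_dist _ w hw1 (fun z => x (f z)) p
    simp only [id] at e3 hwq
    rw [hwq, sub_self, norm_zero] at e3
    have e5 : ∑ z ∈ A.image y, ∑ z' ∈ A.image y, w z * w z' * ‖z - z'‖ ^ 2 ≤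
        K ^ 2 * ∑ z ∈ A.image y, ∑ z' ∈ A.image y, w z * w z' * ‖x (f z) - x (f z')‖ ^ 2 := by
      simp only [Finset.mul_sum]
      refine Finset.sum_le_sum fun z hz => Finset.sum_le_sum fun z' hz' => ?_
      have h' := h _ (Finset.mem_filter.1 (hf z hz)).1 _ (Finset.mem_filter.1 (hf z' hz')).1
      rw [hfy z hz, hfy z' hz'] at h'
      calc w z * w z' * ‖z - z'‖ ^ 2 ≤ w z * w z' * (K * ‖x (f z) - x (f z')‖) ^ 2 := by
            gcongr
            exact mul_nonneg (hw0 z hz) (hw0 z' hz')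
        _ = _ := by ring
    have e6 : (∑ z ∈ A.image y, ∑ z' ∈ A.image y, w z * w z' * ‖x (f z) - x (f z')‖ ^ 2) / 2 ≤
        ∑ z ∈ A.image y, w z * ‖p - x (f z)‖ ^ 2 := by
      rw [e4]
      exact le_add_of_nonneg_left (sq_nonneg _)
    have e7 := mul_le_mul_of_nonneg_left e6 (sq_nonneg K)
    rw [e1] at e2
    linarith
  · have hCc : IsComplete C := ((A.image y).finite_toSet.isCompact_convexHull (𝕜 := ℝ)).isComplete
    obtain ⟨c, hc, hcmin⟩ := exists_norm_eq_iInf_of_complete_convex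
      ((hA.image y).to_set.convexHull) hCc (convex_convexHull ℝ _) q
    have hproj := (norm_eq_iInf_iff_real_inner_le_zero (convex_convexHull ℝ _) hc).1 hcmin
    set d := c - q with hd
    have hd0 : 0 < ‖d‖ := by
      rw [norm_pos_iff, hd, sub_ne_zero]
      exact fun e => hqC (e ▸ hc)
    have hact : ∀ i ∈ A, ∀ s : ℝ, 0 < s → s ≤ 1 → g i (q + s • d) < m := fun i hi s hs0 hs1 => by
      have h1 := hproj (y i) (subset_convexHull ℝ _ (Finset.mem_image_of_mem y hi))
      have h2 : ⟪q - y i, d⟫ = ⟪q - c, y i - c⟫ - ‖d‖ ^ 2 := by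
        rw [← real_inner_self_eq_norm_sq, hd]
        simp only [inner_sub_left, inner_sub_right, real_inner_comm q c, real_inner_comm q (y i),
          real_inner_comm c (y i)]
        ring
      have h3 : g i (q + s • d) = g i q + 2 * s * ⟪q - y i, d⟫ + s ^ 2 * ‖d‖ ^ 2 := by
        simp only [hg, add_sub_right_comm, norm_add_sq_real, real_inner_smul_right, norm_smul,
          Real.norm_eq_abs, mul_pow, sq_abs]
        ring
      rw [h3, (Finset.mem_filter.1 hi).2, h2]
      have h4 : 0 < s * ‖d‖ ^ 2 := by positivity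
      nlinarith [mul_nonneg hs0.le (neg_nonneg.2 h1), mul_le_mul_of_nonneg_right hs1 h4.le]
    have hev : ∀ᶠ s in 𝓝[>] (0 : ℝ), ∀ i ∈ t, g i (q + s • d) < m := by
      refine (eventually_all_finset t).2 fun i hi => ?_
      by_cases hiA : i ∈ A
      · filter_upwards [self_mem_nhdsWithin, nhdsWithin_le_nhds (Iic_mem_nhds one_pos)]
          with s hs0 hs1
        exact hact i hiA s hs0 hs1
      · refine nhdsWithin_le_nhds ?_
        have hlt : g i q < m := lt_of_le_of_ne (Finset.le_sup' (fun i => g i q) hi)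
          fun e => hiA (Finset.mem_filter.2 ⟨hi, e⟩)
        exact (show ContinuousAt (fun s : ℝ => g i (q + s • d)) 0 by fun_prop).eventually_lt
          continuousAt_const (by simpa using hlt)
    obtain ⟨s, hs, hs0, hs1⟩ := (hev.and (Filter.eventually_and.2
      ⟨self_mem_nhdsWithin, nhdsWithin_le_nhds (Iic_mem_nhds one_pos)⟩)).exists
    have hmem : q + s • d ∈ convexHull ℝ (y '' t) := by
      refine (convex_convexHull ℝ _).add_smul_sub_mem hq
        (convexHull_mono ?_ hc) ⟨(le_of_lt hs0), hs1⟩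
      rw [Finset.coe_image]
      exact Set.image_mono (Finset.coe_subset.2 (Finset.filter_subset _ _))
    exact (isMinOn_iff.1 hmin _ hmem).not_gt ((Finset.sup'_lt_iff ht).2 hs)

/-- **Closed convex sets in a Hilbert space.** -/
theorem exists_forall_mem {ι : Type*} [CompleteSpace F] (C : ι → Set F)
    (hconv : ∀ i, Convex ℝ (C i)) (hclosed : ∀ i, IsClosed (C i)) (i₀ : ι)
    (hbdd : Bornology.IsBounded (C i₀))
    (hfin : ∀ t : Finset ι, ∃ q, ∀ i ∈ t, q ∈ C i) : ∃ q, ∀ i, q ∈ C i := by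
  classical
  set D : Finset ι → Set F := fun t => ⋂ i ∈ insert i₀ t, C i
  have hD : ∀ t, Convex ℝ (D t) := fun t => convex_iInter₂ fun i _ => hconv i
  have hex : ∀ t, ∃ q ∈ D t, ∀ z ∈ D t, ⟪0 - q, z - q⟫ ≤ 0 := fun t => by
    obtain ⟨z, hz⟩ := hfin (insert i₀ t)
    obtain ⟨q, hq, hmin⟩ := exists_norm_eq_iInf_of_complete_convex (K := D t)
      ⟨z, Set.mem_iInter₂.2 hz⟩ (isClosed_biInter fun i _ => hclosed i).isComplete (hD t) 0
    exact ⟨q, hq, (norm_eq_iInf_iff_real_inner_le_zero (hD t) hq).1 hmin⟩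
  choose q hqD hq using hex
  have hstep : ∀ t u : Finset ι, t ⊆ u → ‖q u - q t‖ ^ 2 ≤ ‖q u‖ ^ 2 - ‖q t‖ ^ 2 :=
    fun t u htu => by
    have h := hq t (q u) (Set.biInter_subset_biInter_left (Finset.insert_subset_insert _ htu)
      (hqD u))
    simp only [zero_sub, inner_neg_left, inner_sub_right, real_inner_self_eq_norm_sq] at h
    rw [norm_sub_sq_real, real_inner_comm]
    linarith
  obtain ⟨R, hR⟩ := hbdd.exists_norm_le
  have hS : BddAbove (Set.range fun t => ‖q t‖ ^ 2) := ⟨R ^ 2, by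
    rintro _ ⟨t, rfl⟩
    exact pow_le_pow_left₀ (norm_nonneg _)
      (hR _ (Set.mem_iInter₂.1 (hqD t) i₀ (Finset.mem_insert_self _ _))) 2⟩
  set S := ⨆ t, ‖q t‖ ^ 2
  have hle : ∀ t, ‖q t‖ ^ 2 ≤ S := fun t => le_ciSup hS t
  choose u hu using fun n : ℕ => exists_lt_of_lt_ciSup
    (show S - 1 / ((n : ℝ) + 1) < S from sub_lt_self _ (by positivity))
  set T : ℕ → Finset ι := fun n => (Finset.range (n + 1)).biUnion u
  have hT : Monotone T := fun a b hab =>
    Finset.biUnion_subset_biUnion_of_subset_left _ (Finset.range_mono (by omega))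
  have hTlow : ∀ n : ℕ, S - 1 / ((n : ℝ) + 1) < ‖q (T n)‖ ^ 2 := fun n => by
    have hsub : u n ⊆ T n := Finset.subset_biUnion_of_mem u (Finset.self_mem_range_succ n)
    nlinarith [hstep _ _ hsub, hu n]
  have hclose : ∀ (n : ℕ) v, T n ⊆ v → dist (q (T n)) (q v) ≤ Real.sqrt (1 / ((n : ℝ) + 1)) := by
    intro n v hv
    rw [dist_comm, dist_eq_norm]
    refine Real.le_sqrt_of_sq_le ?_
    linarith [hstep _ _ hv, hle v, hTlow n]
  have hb : Tendsto (fun n : ℕ => Real.sqrt (1 / ((n : ℝ) + 1))) atTop (𝓝 0) := by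
    simpa using (tendsto_one_div_add_atTop_nhds_zero_nat (𝕜 := ℝ)).sqrt
  obtain ⟨z, hz⟩ := cauchySeq_tendsto_of_complete
    (cauchySeq_of_le_tendsto_0' _ (fun n m hnm => hclose n (T m) (hT hnm)) hb)
  refine ⟨z, fun i => ?_⟩
  have hlim : Tendsto (fun n => q (insert i (T n))) atTop (𝓝 z) :=
    (tendsto_iff_dist_tendsto_zero.2 (squeeze_zero (fun n => dist_nonneg)
      (fun n => dist_triangle_left _ _ (q (T n))) (by
        have h1 := squeeze_zero (fun n => dist_nonneg)
          (fun n => hclose n _ (Finset.subset_insert i _)) hb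
        simpa using h1.add (tendsto_iff_dist_tendsto_zero.1 hz))))
  exact (hclosed i).mem_of_tendsto hlim (Eventually.of_forall fun n =>
    Set.mem_iInter₂.1 (hqD _) i (Finset.mem_insert_of_mem (Finset.mem_insert_self _ _)))

end FA.Kirszbraun
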