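import Fermat.Agent.Kirszbraun.Balls
import Mathlib.Order.Zorn

/-!
# Kirszbraun's theorem

A maximal contraction graph is defined everywhere, as one point can always be added.
-/

set_option autoImplicit false

noncomputable section

namespace FA.Kirszbraun

open scoped NNReal

variable {E : Type*} [NormedAddCommGroup E] [InnerProductSpace ℝ E]
variable {F : Type*} [NormedAddCommGroup F] [InnerProductSpace ℝ F] [CompleteSpace F]

/-- **One more point.** -/
theorem exists_mem_hull {ι : Type*} [Nonempty ι] (x : ι → E) (y : ι → F) {K : ℝ} (hK : 0 ≤ K)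
    (h : ∀ i j, ‖y i - y j‖ ≤ K * ‖x i - x j‖) {H : Set F} (hconv : Convex ℝ H)
    (hclosed : IsClosed H) (hy : ∀ i, y i ∈ H) (p : E) :
    ∃ q ∈ H, ∀ i, ‖q - y i‖ ≤ K * ‖p - x i‖ := by
  classical
  obtain ⟨i₀⟩ := ‹Nonempty ι›
  set C : Option ι → Set F :=
    fun o => o.elim H fun i => Metric.closedBall (y i) (K * ‖p - x i‖)
  obtain ⟨q, hq⟩ := exists_forall_mem C
    (by rintro (_ | i); exacts [hconv, convex_closedBall _ _])
    (by rintro (_ | i); exacts [hclosed, Metric.isClosed_closedBall]) (some i₀)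
    Metric.isBounded_closedBall (fun t => by
      obtain ⟨q, hq, hle⟩ := exists_hull_point (insert i₀ t.eraseNone)
        (Finset.insert_nonempty _ _) x y K (fun i _ j _ => h i j) p
      refine ⟨q, ?_⟩
      rintro (_ | i) hi
      · exact convexHull_min (Set.image_subset_iff.2 fun i _ => hy i) hconv hq
      · rw [show C (some i) = Metric.closedBall (y i) (K * ‖p - x i‖) from rfl,
          Metric.mem_closedBall, dist_eq_norm]
        exact (sq_le_sq₀ (norm_nonneg _) (by positivity)).1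
          (hle i (Finset.mem_insert_of_mem (Finset.mem_eraseNone.2 hi))))
  exact ⟨q, hq none, fun i => by simpa [C, dist_eq_norm] using hq (some i)⟩

/-- **Kirszbraun's theorem.** -/
theorem exists_extension {s : Set E} (hs : s.Nonempty) {f : E → F} {K : ℝ≥0}
    (hf : LipschitzOnWith K f s) :
    ∃ g : E → F, LipschitzWith K g ∧ Set.EqOn g f s ∧
      ∀ p, g p ∈ closure (convexHull ℝ (f '' s)) := by
  classical
  set H := closure (convexHull ℝ (f '' s))
  have hH : Convex ℝ H := (convex_convexHull ℝ _).closure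
  set 𝒢 : Set (Set (E × F)) :=
    {G | (∀ a ∈ G, ∀ b ∈ G, ‖a.2 - b.2‖ ≤ K * ‖a.1 - b.1‖) ∧ ∀ a ∈ G, a.2 ∈ H}
  have h₀ : (fun a => (a, f a)) '' s ∈ 𝒢 := by
    refine ⟨?_, ?_⟩
    · rintro _ ⟨a, ha, rfl⟩ _ ⟨b, hb, rfl⟩
      simpa [dist_eq_norm] using hf.dist_le_mul a ha b hb
    · rintro _ ⟨a, ha, rfl⟩
      exact subset_closure (subset_convexHull ℝ _ ⟨a, ha, rfl⟩)
  obtain ⟨G, hG₀, hG⟩ := zorn_subset_nonempty 𝒢 (fun c hc hchain _ => ⟨⋃₀ c,
    ⟨fun a ha b hb => by
      obtain ⟨A, hA, ha⟩ := ha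
      obtain ⟨B, hB, hb⟩ := hb
      rcases hchain.total hA hB with h | h
      exacts [(hc hB).1 a (h ha) b hb, (hc hA).1 a ha b (h hb)],
    fun a ⟨A, hA, ha⟩ => (hc hA).2 a ha⟩, fun A hA => Set.subset_sUnion_of_mem hA⟩) _ h₀
  have hdom : ∀ p, ∃ q, (p, q) ∈ G := fun p => by
    obtain ⟨a, ha⟩ := hs
    have : Nonempty G := ⟨⟨_, hG₀ ⟨a, ha, rfl⟩⟩⟩
    obtain ⟨q, hqH, hq⟩ := exists_mem_hull (fun a : G => a.1.1) (fun a : G => a.1.2) K.coe_nonneg
      (fun a b => hG.prop.1 _ a.2 _ b.2) hH isClosed_closure (fun a => hG.prop.2 _ a.2) p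
    refine ⟨q, hG.le_of_ge (y := insert (p, q) G) ⟨?_, ?_⟩ (Set.subset_insert _ _)
      (Set.mem_insert _ _)⟩
    · intro a ha b hb
      rcases ha with rfl | ha <;> rcases hb with rfl | hb
      · simp
      · exact hq ⟨b, hb⟩
      · rw [norm_sub_rev, norm_sub_rev a.1]
        exact hq ⟨a, ha⟩
      · exact hG.prop.1 a ha b hb
    · intro a ha
      rcases ha with rfl | ha
      exacts [hqH, hG.prop.2 a ha]
  choose g hg using hdom
  refine ⟨g, LipschitzWith.of_dist_le_mul fun a b => ?_, fun a ha => ?_,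
    fun p => hG.prop.2 _ (hg p)⟩
  · simpa [dist_eq_norm] using hG.prop.1 _ (hg a) _ (hg b)
  · have := hG.prop.1 _ (hg a) _ (hG₀ ⟨a, ha, rfl⟩)
    simpa [sub_eq_zero] using this

end FA.Kirszbraun
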